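import Fermat.Agent.SLnCount.Count
import Mathlib.Analysis.SpecificLimits.Basic
import Mathlib.Data.Nat.Log

/-!
# A discrete subgroup of `SL(2, ℝ)` grows at most linearly in the squared norm

Disjoint translates of a small set lie in a slightly larger ball, whose volume is linear in the
squared radius.  So the sum of `‖γ‖ ^ (-3)` converges.
-/

set_option autoImplicit false
set_option linter.unusedSectionVars false
set_option linter.style.haveILetI false

noncomputable section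

open MeasureTheory Set Filter Topology
open FA.SLnLattice FA.SLnCount
open scoped MatrixGroups ENNReal

namespace FA.CocompactForms

theorem two_le_normSqSL (g : SL(2, ℝ)) : 2 ≤ normSqSL g := by
  have h := g.prop
  rw [Matrix.det_fin_two] at h
  rw [normSqSL_eq]
  simp only [matSq, Fin.sum_univ_two]
  nlinarith [sq_nonneg (g 0 0 - g 1 1), sq_nonneg (g 0 1 + g 1 0)]

variable (Γ : Subgroup SL(2, ℝ)) [DiscreteTopology Γ]

theorem exists_separated_nhds :
    ∃ U : Set SL(2, ℝ), IsOpen U ∧ (1 : SL(2, ℝ)) ∈ U ∧ U ⊆ nearOne 2 1 ∧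
      ∀ γ ∈ Γ, ∀ u ∈ U, ∀ v ∈ U, γ * u = v → γ = 1 := by
  obtain ⟨W, hW, hW1⟩ := isOpen_induced_iff.1 (isOpen_discrete ({1} : Set Γ))
  have hW1' : (1 : SL(2, ℝ)) ∈ W := by
    have : (1 : Γ) ∈ ((↑) ⁻¹' W : Set Γ) := by rw [hW1]; rfl
    exact this
  have hc : Continuous fun p : SL(2, ℝ) × SL(2, ℝ) => p.2 * p.1⁻¹ :=
    continuous_snd.mul continuous_fst.inv
  obtain ⟨A, B, hA, hB, hA1, hB1, hAB⟩ := isOpen_prod_iff.1 (hW.preimage hc) 1 1
    (by simpa using hW1')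
  refine ⟨A ∩ B ∩ nearOne 2 1, (hA.inter hB).inter (isOpen_nearOne _),
    ⟨⟨hA1, hB1⟩, one_mem_nearOne one_pos⟩, inter_subset_right, fun γ hγ u hu v hv h => ?_⟩
  have h1 : γ ∈ W := by
    rw [show γ = v * u⁻¹ by rw [← h, mul_inv_cancel_right]]
    exact hAB (mk_mem_prod hu.1.1 hv.1.2)
  have h2 : (⟨γ, hγ⟩ : Γ) ∈ ({1} : Set Γ) := by
    rw [← hW1]
    exact h1
  exact congrArg Subtype.val h2

/-- **At most linear growth.** -/
theorem exists_count_le :
    ∃ C : ℝ, 0 ≤ C ∧ ∀ R : ℝ, 1 ≤ R → ∀ s : Finset Γ, (∀ γ ∈ s, normSqSL γ.1 ≤ R) →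
      (s.card : ℝ) ≤ C * R := by
  letI : MeasurableSpace (SLR 2) := borel _
  haveI : BorelSpace (SLR 2) := ⟨rfl⟩
  obtain ⟨U, hUo, hU1, hUn, hsep⟩ := exists_separated_nhds Γ
  set μ : Measure (SLR 2) := coneMeasure 2 with hμ
  have hball : ∀ R, μ (ball 2 R) ≠ ⊤ := fun R => (isCompact_ball R).measure_ne_top
  have hUtop : μ U ≠ ⊤ := by
    refine measure_ne_top_of_subset (s := ball 2 ((1 + 1) ^ 2 * normSqSL (1 : SLR 2)))
      (fun u hu => ?_) (hball _)
    have := normSqSL_mul_right one_pos (hUn hu) (1 : SLR 2)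
    rwa [one_mul] at this
  have hU0 : 0 < μ.real U := ENNReal.toReal_pos (hUo.measure_pos μ ⟨1, hU1⟩).ne' hUtop
  obtain ⟨R₀, hR₀⟩ := eventually_atTop.1
    (((tendsto_measureReal_ball (n := 2) le_rfl).eventually_le_const (lt_add_one _)).and
      (eventually_ge_atTop (1 : ℝ)))
  set L : ℝ := ballConst 2 / ((2 : ℕ) : ℝ) + 1 with hL
  have hL0 : 0 ≤ L := by
    have : 0 < ballConst 2 := ballConst_pos (by norm_num)
    positivity
  have hvol : ∀ R, R₀ ≤ R → μ.real (ball 2 R) ≤ L * R := fun R hR => by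
    obtain ⟨h, hR1⟩ := hR₀ R hR
    rwa [show (((2 : ℕ) : ℝ) ^ 2 - ((2 : ℕ) : ℝ)) / 2 = 1 by norm_num, Real.rpow_one,
      div_le_iff₀ (by linarith)] at h
  set R₁ := max R₀ 1
  refine ⟨L * (4 * R₁) / μ.real U, by positivity, fun R hR s hs => ?_⟩
  have hR₁ : R₁ ≤ R₁ * R := le_mul_of_one_le_right (by positivity) hR
  have hdis : Set.PairwiseDisjoint (↑s : Set Γ)
      fun γ : Γ => (fun u => (γ : SL(2, ℝ))⁻¹ * u) ⁻¹' U :=
    fun γ _ δ _ hne => disjoint_left.2 fun x hx hy => by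
      refine hne (Subtype.ext ?_)
      have := hsep ((δ : SL(2, ℝ))⁻¹ * γ) (Γ.mul_mem (Γ.inv_mem δ.2) γ.2) _ hx _ hy
        (by group)
      exact (inv_mul_eq_one.1 this).symm
  have hsub : (⋃ γ ∈ s, (fun u => (γ : SL(2, ℝ))⁻¹ * u) ⁻¹' U) ⊆ ball 2 (4 * (R₁ * R)) := by
    refine iUnion₂_subset fun γ hγ x hx => ?_
    have h := normSqSL_mul_right one_pos (hUn hx) (γ : SL(2, ℝ))
    rw [mul_inv_cancel_left] at h
    show normSqSL x ≤ _
    nlinarith [hs γ hγ, le_max_right R₀ 1]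
  have hm : (s.card : ℝ) * μ.real U ≤ L * (4 * (R₁ * R)) := by
    refine le_trans ?_ (hvol _ ((le_max_left R₀ 1).trans (by linarith [le_max_right R₀ 1])))
    refine le_trans (le_of_eq ?_) (ENNReal.toReal_mono (hball _) (measure_mono hsub))
    rw [measure_biUnion_finset hdis
      fun γ _ => (hUo.preimage (continuous_const_mul _)).measurableSet]
    simp [measure_preimage_mul, measureReal_def]
  rw [div_mul_eq_mul_div, le_div_iff₀ hU0]
  linarith

/-- **Convergence of `∑ ‖γ‖ ^ (-3)`.** -/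
theorem summable_normSqSL :
    Summable fun γ : Γ => (Real.sqrt (normSqSL (γ : SL(2, ℝ))))⁻¹ ^ 3 := by
  obtain ⟨C, hC0, hC⟩ := exists_count_le Γ
  set q : ℝ := (Real.sqrt 2)⁻¹ with hq
  have hq0 : 0 < q := by positivity
  have hq1 : q < 1 := inv_lt_one_of_one_lt₀ (Real.one_lt_sqrt_two)
  have hq2 : 2 * q ^ 2 = 1 := by
    rw [hq, inv_pow, Real.sq_sqrt (by norm_num), mul_inv_cancel₀ two_ne_zero]
  refine summable_of_sum_le (c := 2 * C * (1 - q)⁻¹) (fun γ => by positivity) fun s => ?_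
  classical
  set lev : Γ → ℕ := fun γ => Nat.log 2 ⌊normSqSL (γ : SL(2, ℝ))⌋₊ with hlev
  have hfl : ∀ γ : Γ, ⌊normSqSL (γ : SL(2, ℝ))⌋₊ ≠ 0 := fun γ =>
    Nat.pos_iff_ne_zero.1 (Nat.floor_pos.2 (le_trans one_le_two (two_le_normSqSL _)))
  have hlo : ∀ γ : Γ, (2 : ℝ) ^ lev γ ≤ normSqSL (γ : SL(2, ℝ)) := fun γ =>
    le_trans (by exact_mod_cast Nat.pow_log_le_self 2 (hfl γ))
      (Nat.floor_le (le_trans zero_le_two (two_le_normSqSL _)))
  have hhi : ∀ γ : Γ, normSqSL (γ : SL(2, ℝ)) ≤ 2 * 2 ^ lev γ := fun γ => by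
    refine (Nat.lt_floor_add_one _).le.trans ?_
    rw [← pow_succ']
    exact_mod_cast Nat.lt_pow_succ_log_self one_lt_two _
  rw [← Finset.sum_fiberwise_of_maps_to (t := s.image lev)
    fun γ hγ => Finset.mem_image_of_mem lev hγ]
  refine (Finset.sum_le_sum (g := fun m => 2 * C * q ^ m) fun m _ => ?_).trans ?_
  · set f := s.filter fun γ => lev γ = m
    have hterm : ∀ γ ∈ f, (Real.sqrt (normSqSL (γ : SL(2, ℝ))))⁻¹ ^ 3 ≤ (q ^ m) ^ 3 :=
      fun γ hγ => by
      refine pow_le_pow_left₀ (by positivity) ?_ 3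
      rw [hq, inv_pow]
      refine inv_anti₀ (by positivity) (Real.le_sqrt_of_sq_le ?_)
      rw [← pow_mul, mul_comm m 2, pow_mul, Real.sq_sqrt (by norm_num)]
      exact (Finset.mem_filter.1 hγ).2 ▸ hlo γ
    refine (Finset.sum_le_card_nsmul _ _ _ hterm).trans ?_
    rw [nsmul_eq_mul]
    have hc := hC (2 * 2 ^ m)
      (by linarith [one_le_pow₀ (show (1 : ℝ) ≤ 2 by norm_num) (n := m)]) f
      fun γ hγ => (Finset.mem_filter.1 hγ).2 ▸ hhi γ
    refine (mul_le_mul_of_nonneg_right hc (by positivity)).trans_eq ?_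
    calc C * (2 * 2 ^ m) * (q ^ m) ^ 3 = 2 * C * ((2 * q ^ 2) ^ m * q ^ m) := by
          rw [mul_pow]; ring
      _ = 2 * C * q ^ m := by rw [hq2, one_pow, one_mul]
  · rw [← Finset.mul_sum]
    refine mul_le_mul_of_nonneg_left ?_ (by positivity)
    rw [← tsum_geometric_of_lt_one hq0.le hq1]
    exact (summable_geometric_of_lt_one hq0.le hq1).sum_le_tsum _ fun i _ => by positivity

end FA.CocompactForms

end
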