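import Fermat.Agent.CocompactForms.Chart
import Fermat.Agent.CocompactForms.Counting
import Mathlib.Analysis.Normed.Group.Tannery

/-!
# Poincaré series

For `k ≥ 3` the series `∑ ((a + i c) z + b + i d) ^ (-k)` over a discrete subgroup converges to a
form of weight `k`.  At `i` the finite stabiliser dominates as `k` grows along suitable multiples,
so forms exist in arbitrarily large weights.
-/

set_option autoImplicit false
set_option linter.unusedSectionVars false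
set_option linter.style.haveILetI false

noncomputable section

open Complex Set Filter Topology
open UpperHalfPlane hiding I
open FA.SLnLattice FA.SLnCount
open scoped MatrixGroups Manifold

namespace FA.CocompactForms

/-- The numerator plus `i` times the denominator, `(a + i c) z + b + i d`. -/
def seed (g : SL(2, ℝ)) (z : ℂ) : ℂ :=
  ((g 0 0 : ℂ) * z + (g 0 1 : ℂ)) + I * jac g z

theorem seed_eq (g : SL(2, ℝ)) (z : ℍ) :
    seed g z = jac g z * (((g • z : ℍ) : ℂ) + I) := by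
  have h : ((g • z : ℍ) : ℂ) * jac g z = (g 0 0 : ℂ) * z + (g 0 1 : ℂ) := by
    rw [coe_smul_eq_mob, mob, div_mul_cancel₀ _ (jac_ne_zero g z.im_ne_zero)]
  rw [seed, ← h]
  ring

theorem seed_ne_zero (g : SL(2, ℝ)) {z : ℂ} (hz : 0 < z.im) : seed g z ≠ 0 := by
  have h := seed_eq g ⟨z, hz⟩
  rw [show seed g z = seed g ((⟨z, hz⟩ : ℍ) : ℂ) from rfl, h]
  exact mul_ne_zero (jac_ne_zero g hz.ne') (add_I_ne_zero _)

theorem seed_smul (γ δ : SL(2, ℝ)) (z : ℍ) :
    seed γ (δ • z : ℍ) * jac δ z = seed (γ * δ) z := by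
  have h : ((δ • z : ℍ) : ℂ) * jac δ z = (δ 0 0 : ℂ) * z + (δ 0 1 : ℂ) := by
    rw [coe_smul_eq_mob, mob, div_mul_cancel₀ _ (jac_ne_zero δ z.im_ne_zero)]
  have e : seed γ (δ • z : ℍ) * jac δ z = ((γ 0 0 : ℂ) + I * (γ 1 0 : ℂ)) *
      (((δ • z : ℍ) : ℂ) * jac δ z) + ((γ 0 1 : ℂ) + I * (γ 1 1 : ℂ)) * jac δ z := by
    simp [seed, jac]
    ring
  rw [e, h]
  simp [seed, jac, Matrix.mul_apply, Fin.sum_univ_two]
  ring

theorem normSq_seed_I (g : SL(2, ℝ)) : ‖seed g I‖ ^ 2 = normSqSL g + 2 := by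
  have hdet := g.prop
  rw [Matrix.det_fin_two] at hdet
  rw [← normSq_eq_norm_sq, normSqSL_eq]
  simp [seed, jac, matSq, normSq_apply, Fin.sum_univ_two]
  nlinarith

/-- A lower bound on a box. -/
theorem seed_lower_bound {B : ℝ} (hB : 1 ≤ B) {z : ℂ} (hx : |z.re| ≤ B) (hy1 : 1 / B ≤ z.im)
    (g : SL(2, ℝ)) :
    normSqSL g ≤ 8 * B ^ 4 * ‖seed g z‖ ^ 2 := by
  have hB0 : 0 < B := by linarith
  have hdet := g.prop
  rw [Matrix.det_fin_two] at hdet
  rw [← normSq_eq_norm_sq, normSqSL_eq]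
  simp [seed, jac, matSq, normSq_apply, Fin.sum_univ_two]
  set a := g 0 0
  set b := g 0 1
  set c := g 1 0
  set d := g 1 1
  set x := z.re
  set y := z.im
  have hyB : 1 ≤ B * y := by rw [div_le_iff₀ hB0] at hy1; linarith
  have hy0 : 0 < y := lt_of_lt_of_le (by positivity) hy1
  have hx2 : x ^ 2 ≤ B ^ 2 := sq_le_sq' (abs_le.1 hx).1 (abs_le.1 hx).2
  have hy2 : 1 ≤ B ^ 2 * y ^ 2 := by nlinarith
  have key : ∀ p q : ℝ, p ^ 2 + q ^ 2 ≤ 8 * B ^ 4 * ((p * x + q) ^ 2 + p ^ 2 * y ^ 2) :=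
    fun p q => by
    have h1 : p ^ 2 ≤ B ^ 2 * (p ^ 2 * y ^ 2) := by nlinarith [sq_nonneg p]
    have h2 : q ^ 2 ≤ 2 * (p * x + q) ^ 2 + 2 * B ^ 2 * p ^ 2 := by
      nlinarith [sq_nonneg (2 * p * x + q), sq_nonneg p]
    have h3 : (1 : ℝ) ≤ B ^ 2 := by nlinarith
    have h4 : p ^ 2 * (1 + 2 * B ^ 2) ≤ B ^ 2 * (p ^ 2 * y ^ 2) * (3 * B ^ 2) :=
      mul_le_mul h1 (by linarith) (by positivity) (by positivity)
    have h5 : 2 * (p * x + q) ^ 2 ≤ 8 * B ^ 4 * (p * x + q) ^ 2 := by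
      refine mul_le_mul_of_nonneg_right ?_ (sq_nonneg _)
      nlinarith
    have h6 : 0 ≤ B ^ 4 * (p ^ 2 * y ^ 2) := by positivity
    linarith
  have e : (a * x + b + -(c * y)) * (a * x + b + -(c * y)) +
      (a * y + (c * x + d)) * (a * y + (c * x + d)) = ((a * x + b) ^ 2 + a ^ 2 * y ^ 2) +
        ((c * x + d) ^ 2 + c ^ 2 * y ^ 2) + 2 * y * (a * d - b * c) := by ring
  rw [e, hdet]
  nlinarith [key a b, key c d, pow_pos hB0 4, mul_pos (pow_pos hB0 4) hy0]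

/-- The Poincaré series. -/
def poincare (Γ : Subgroup SL(2, ℝ)) (k : ℕ) (z : ℂ) : ℂ := ∑' γ : Γ, (seed γ z ^ k)⁻¹

variable (Γ : Subgroup SL(2, ℝ)) [DiscreteTopology Γ]

theorem exists_majorant {k : ℕ} (hk : 3 ≤ k) {B : ℝ} (hB : 1 ≤ B) :
    ∃ u : Γ → ℝ, Summable u ∧ ∀ (γ : Γ) (z : ℂ), |z.re| ≤ B → 1 / B ≤ z.im →
      ‖(seed γ z ^ k)⁻¹‖ ≤ u γ := by
  refine ⟨fun γ => Real.sqrt (8 * B ^ 4) ^ k * (Real.sqrt (normSqSL (γ : SL(2, ℝ))))⁻¹ ^ 3,
    (summable_normSqSL Γ).mul_left _, fun γ z hx hy => ?_⟩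
  have hn := two_le_normSqSL (γ : SL(2, ℝ))
  have hne : (1 : ℝ) ≤ Real.sqrt (normSqSL (γ : SL(2, ℝ))) := Real.one_le_sqrt.2 (by linarith)
  have hs0 : 0 < ‖seed (γ : SL(2, ℝ)) z‖ := norm_pos_iff.2
    (seed_ne_zero _ (lt_of_lt_of_le (by positivity) hy))
  have h1 : ‖seed (γ : SL(2, ℝ)) z‖⁻¹ ≤
      Real.sqrt (8 * B ^ 4) * (Real.sqrt (normSqSL (γ : SL(2, ℝ))))⁻¹ := by
    rw [← div_eq_mul_inv, le_div_iff₀ (by linarith), inv_mul_le_iff₀ hs0]
    calc Real.sqrt (normSqSL (γ : SL(2, ℝ)))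
        ≤ Real.sqrt (8 * B ^ 4 * ‖seed (γ : SL(2, ℝ)) z‖ ^ 2) :=
          Real.sqrt_le_sqrt (seed_lower_bound hB hx hy _)
      _ = ‖seed (γ : SL(2, ℝ)) z‖ * Real.sqrt (8 * B ^ 4) := by
          rw [Real.sqrt_mul (by positivity), Real.sqrt_sq (norm_nonneg _), mul_comm]
  rw [norm_inv, norm_pow, ← inv_pow]
  refine (pow_le_pow_left₀ (by positivity) h1 k).trans ?_
  rw [mul_pow]
  exact mul_le_mul_of_nonneg_left
    (pow_le_pow_of_le_one (by positivity) (inv_le_one_of_one_le₀ hne) hk) (by positivity)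

theorem summable_poincare {k : ℕ} (hk : 3 ≤ k) {z : ℂ} (hz : 0 < z.im) :
    Summable fun γ : Γ => (seed γ z ^ k)⁻¹ := by
  set B := max (max 1 |z.re|) (1 / z.im)
  obtain ⟨u, hu, hle⟩ := exists_majorant Γ hk (B := B) ((le_max_left _ _).trans (le_max_left _ _))
  exact hu.of_norm_bounded fun γ => hle γ z ((le_max_right _ _).trans (le_max_left _ _))
    ((one_div_le (by positivity) hz).2 (le_max_right _ _))

theorem differentiableOn_poincare {k : ℕ} (hk : 3 ≤ k) :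
    DifferentiableOn ℂ (poincare Γ k) {z : ℂ | 0 < z.im} := by
  intro z hz
  set B := max (max 1 (|z.re| + 1)) (2 / z.im) with hBdef
  have hB : 1 ≤ B := (le_max_left _ _).trans (le_max_left _ _)
  set O : Set ℂ := {w | |w.re| < B} ∩ {w | 1 / B < w.im}
  have hO : IsOpen O := (isOpen_lt Complex.continuous_re.abs continuous_const).inter
    (isOpen_lt continuous_const Complex.continuous_im)
  have hzO : z ∈ O := by
    refine ⟨show |z.re| < B from
      lt_of_lt_of_le (lt_add_one _) ((le_max_right _ _).trans (le_max_left _ _)), ?_⟩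
    have h2 : 2 / z.im ≤ B := le_max_right _ _
    show 1 / B < z.im
    rw [div_le_iff₀ hz] at h2
    rw [div_lt_iff₀ (by linarith)]
    linarith
  obtain ⟨u, hu, hle⟩ := exists_majorant Γ hk hB
  have hd := Complex.differentiableOn_tsum_of_summable_norm (U := O) hu
    (F := fun (γ : Γ) w => (seed γ w ^ k)⁻¹) (fun γ w hw => by
      have hw0 : 0 < w.im := lt_trans (by positivity) hw.2
      have hs : DifferentiableAt ℂ (fun w => seed (γ : SL(2, ℝ)) w ^ k) w := by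
        simp only [seed, jac]
        fun_prop
      exact (hs.inv (pow_ne_zero k (seed_ne_zero _ hw0))).differentiableWithinAt)
      hO (fun γ w hw => hle γ w hw.1.le hw.2.le)
  exact (hd.differentiableAt (hO.mem_nhds hzO)).differentiableWithinAt

/-- **The series is a form.** -/
theorem isForm_poincare {k : ℕ} (hk : 3 ≤ k) :
    IsForm Γ (k : ℤ) fun z : ℍ => poincare Γ k z := by
  refine ⟨UpperHalfPlane.mdifferentiable_iff.2 ((differentiableOn_poincare Γ hk).congr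
    fun z hz => ?_), fun δ hδ z => ?_⟩
  · rw [Function.comp_apply, ofComplex_apply_of_im_pos hz]
  · have h : ∀ γ : Γ, (seed γ (δ • z : ℍ) ^ k)⁻¹ =
        jac δ z ^ k * (seed ((γ * ⟨δ, hδ⟩ : Γ) : SL(2, ℝ)) z ^ k)⁻¹ := fun γ => by
      rw [Subgroup.coe_mul, ← seed_smul, mul_pow, mul_inv, mul_left_comm,
        mul_inv_cancel₀ (pow_ne_zero _ (jac_ne_zero δ z.im_ne_zero)), mul_one]
    rw [zpow_natCast]
    simp only [poincare]
    rw [tsum_congr h, tsum_mul_left]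
    congr 1
    exact (Equiv.mulRight (⟨δ, hδ⟩ : Γ)).tsum_eq fun γ : Γ => (seed γ z ^ k)⁻¹

/-- The stabiliser of `i` in the subgroup. -/
def stab : Subgroup Γ := MulAction.stabilizer Γ UpperHalfPlane.I

theorem mem_stab_iff (γ : Γ) : γ ∈ stab Γ ↔ normSqSL (γ : SL(2, ℝ)) = 2 := by
  have hdet := (γ : SL(2, ℝ)).prop
  rw [Matrix.det_fin_two] at hdet
  have hne := jac_ne_zero (γ : SL(2, ℝ)) (z := I) (by simp)
  rw [stab, MulAction.mem_stabilizer_iff, Subgroup.smul_def, UpperHalfPlane.ext_iff,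
    coe_smul_eq_mob, mob, UpperHalfPlane.coe_I, div_eq_iff hne, normSqSL_eq]
  simp [jac, matSq, Fin.sum_univ_two, Complex.ext_iff]
  constructor
  · rintro ⟨h1, h2⟩
    nlinarith
  · intro h
    have h1 : (γ.1 0 0 - γ.1 1 1) ^ 2 + (γ.1 0 1 + γ.1 1 0) ^ 2 = 0 := by linarith
    constructor <;> nlinarith [sq_nonneg (γ.1 0 0 - γ.1 1 1), sq_nonneg (γ.1 0 1 + γ.1 1 0)]

theorem finite_stab : Finite (stab Γ) := by
  obtain ⟨C, -, hC⟩ := exists_count_le Γ
  have hfin : ((stab Γ : Subgroup Γ) : Set Γ).Finite := by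
    by_contra hinf
    obtain ⟨n, hn⟩ := exists_nat_gt (C * 2)
    obtain ⟨s, hs, hcard⟩ := Set.Infinite.exists_subset_card_eq hinf n
    have := hC 2 one_le_two s fun γ hγ => ((mem_stab_iff Γ γ).1 (hs hγ)).le
    rw [hcard] at this
    linarith
  exact hfin.to_subtype

theorem seed_pow_of_mem_stab {γ : Γ} (hγ : γ ∈ stab Γ) :
    seed (γ : SL(2, ℝ)) I ^ (4 * Nat.card (stab Γ)) = 2 ^ (4 * Nat.card (stab Γ)) := by
  haveI := finite_stab Γ
  set N := Nat.card (stab Γ) with hN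
  have hfix : (γ : SL(2, ℝ)) • UpperHalfPlane.I = UpperHalfPlane.I := hγ
  have hseed : seed (γ : SL(2, ℝ)) I = 2 * I * jac (γ : SL(2, ℝ)) I := by
    have h := seed_eq (γ : SL(2, ℝ)) UpperHalfPlane.I
    rw [hfix, UpperHalfPlane.coe_I] at h
    rw [h]
    ring
  have hj : ∀ m : ℕ, jac ((γ : SL(2, ℝ)) ^ m) I = jac (γ : SL(2, ℝ)) I ^ m := fun m => by
    induction m with
    | zero => simp [jac]
    | succ m ih =>
      have h := jac_mul ((γ : SL(2, ℝ)) ^ m) (γ : SL(2, ℝ)) UpperHalfPlane.I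
      rw [hfix, UpperHalfPlane.coe_I, ih] at h
      rw [pow_succ, h, pow_succ]
  have hone : γ ^ N = 1 := congrArg Subtype.val (pow_card_eq_one' (x := (⟨γ, hγ⟩ : stab Γ)))
  have h1 : jac (γ : SL(2, ℝ)) I ^ N = 1 := by
    rw [← hj, ← Subgroup.coe_pow, hone]
    simp [jac]
  rw [hseed, mul_pow, mul_pow, mul_comm 4 N, pow_mul I, ← pow_mul, mul_comm N 4, pow_mul I,
    Complex.I_pow_four, one_pow, mul_comm 4 N, pow_mul (jac _ _), h1, one_pow, mul_one, mul_one]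

/-- **Forms exist in arbitrarily large weights.** -/
theorem exists_form_ne_zero (K : ℕ) :
    ∃ k : ℕ, K ≤ k ∧ ∃ f : ℍ → ℂ, IsForm Γ (k : ℤ) f ∧ f ≠ 0 := by
  haveI := finite_stab Γ
  haveI := Fintype.ofFinite (stab Γ)
  classical
  set N := Nat.card (stab Γ) with hN
  have hNpos : 0 < N := Nat.card_pos
  set F : ℕ → Γ → ℂ := fun m γ => (2 / seed (γ : SL(2, ℝ)) I) ^ (4 * N * (m + 1))
  have hsqrt : ∀ γ : Γ, ‖seed (γ : SL(2, ℝ)) I‖ = Real.sqrt (normSqSL (γ : SL(2, ℝ)) + 2) :=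
    fun γ => by rw [← normSq_seed_I, Real.sqrt_sq (norm_nonneg _)]
  have h2le : ∀ γ : Γ, (2 : ℝ) ≤ ‖seed (γ : SL(2, ℝ)) I‖ := fun γ => by
    rw [hsqrt]
    exact Real.le_sqrt_of_sq_le (by linarith [two_le_normSqSL (γ : SL(2, ℝ))])
  have hlt : ∀ γ : Γ, γ ∉ stab Γ → (2 : ℝ) < ‖seed (γ : SL(2, ℝ)) I‖ := fun γ hγ => by
    refine lt_of_le_of_ne (h2le γ) fun h => hγ ((mem_stab_iff Γ γ).2 ?_)
    have := normSq_seed_I (γ : SL(2, ℝ))
    rw [← h] at this
    linarith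
  have hlim : ∀ γ : Γ, Tendsto (fun m => F m γ) atTop (𝓝 (if γ ∈ stab Γ then 1 else 0)) :=
    fun γ => by
    by_cases hγ : γ ∈ stab Γ
    · rw [if_pos hγ]
      refine tendsto_const_nhds.congr fun m => ?_
      simp only [F]
      rw [pow_mul _ (4 * N), div_pow, hN, seed_pow_of_mem_stab Γ hγ,
        div_self (pow_ne_zero _ two_ne_zero), one_pow]
    · rw [if_neg hγ]
      have h := tendsto_pow_atTop_nhds_zero_of_norm_lt_one (x := 2 / seed (γ : SL(2, ℝ)) I) (by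
        rw [norm_div, Complex.norm_ofNat, div_lt_one (by linarith [h2le γ])]
        exact hlt γ hγ)
      exact h.comp (tendsto_atTop_mono (fun m => (by simp only [id]; nlinarith : id m ≤ _))
        tendsto_id)
  have hbd : ∀ᶠ m in atTop, ∀ γ : Γ,
      ‖F m γ‖ ≤ 2 ^ 3 * (Real.sqrt (normSqSL (γ : SL(2, ℝ))))⁻¹ ^ 3 :=
    Eventually.of_forall fun m γ => by
      have h3 : 3 ≤ 4 * N * (m + 1) := by nlinarith
      have hpos : 0 < Real.sqrt (normSqSL (γ : SL(2, ℝ))) :=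
        Real.sqrt_pos.2 (by linarith [two_le_normSqSL (γ : SL(2, ℝ))])
      simp only [F]
      rw [norm_pow, norm_div, Complex.norm_ofNat, ← mul_pow]
      refine (pow_le_pow_of_le_one (by positivity) ((div_le_one (by linarith [h2le γ])).2 (h2le γ))
        h3).trans (pow_le_pow_left₀ (by positivity) ?_ 3)
      rw [← div_eq_mul_inv, hsqrt]
      exact div_le_div_of_nonneg_left zero_le_two hpos (Real.sqrt_le_sqrt (by linarith))
  have hT := tendsto_tsum_of_dominated_convergence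
    ((summable_normSqSL Γ).mul_left (2 ^ 3)) hlim hbd
  have hval : (∑' γ : Γ, if γ ∈ stab Γ then (1 : ℂ) else 0) = (N : ℂ) := by
    rw [tsum_eq_sum (s := (Finset.univ : Finset (stab Γ)).map (Function.Embedding.subtype _))
      fun γ hγ => if_neg fun h => hγ (Finset.mem_map.2 ⟨⟨γ, h⟩, Finset.mem_univ _, rfl⟩),
      Finset.sum_map]
    simp [hN, Nat.card_eq_fintype_card]
  rw [hval] at hT
  obtain ⟨m, hm, hne⟩ := ((eventually_ge_atTop K).and
    (hT.eventually_ne (Nat.cast_ne_zero.2 hNpos.ne'))).exists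
  set k := 4 * N * (m + 1)
  have hk3 : 3 ≤ k := by simp only [k]; nlinarith
  refine ⟨k, by simp only [k]; nlinarith, _, isForm_poincare Γ hk3, fun h0 => hne ?_⟩
  have h1 : poincare Γ k I = 0 := congrFun h0 UpperHalfPlane.I
  have e : ∀ γ : Γ, F m γ = 2 ^ k * (seed (γ : SL(2, ℝ)) I ^ k)⁻¹ := fun γ => by
    simp only [F, k, div_eq_mul_inv, mul_pow, inv_pow]
  rw [tsum_congr e, tsum_mul_left]
  exact mul_eq_zero_of_right _ h1

end FA.CocompactForms

end
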