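import Fermat.Agent.CocompactForms.Chart
import Fermat.Agent.HoweMoore.Group
import Fermat.Agent.SLnLattice.Cone
import Mathlib.Analysis.Calculus.ContDiff.Operations
import Mathlib.Analysis.Calculus.IteratedDeriv.Lemmas
import Mathlib.Analysis.Complex.AbsMax
import Mathlib.Analysis.Complex.Liouville
import Mathlib.Analysis.Convex.Topology

/-!
# Finiteness of forms on compact quotients

The invariant function of a form attains its maximum.  This kills negative weights, makes forms of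
weight zero constant and, by Cauchy's estimates in finitely many discs, makes a form of weight `k`
zero once its jets of order `3 k + 3` at finitely many points vanish.
-/

set_option autoImplicit false
set_option linter.unusedSectionVars false
set_option linter.style.haveILetI false

noncomputable section

open Complex Set Filter Topology Metric
open UpperHalfPlane hiding I
open scoped MatrixGroups Manifold

namespace FA.CocompactForms

variable (Γ : Subgroup SL(2, ℝ)) [DiscreteTopology Γ] [CompactSpace (SL(2, ℝ) ⧸ Γ)]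

/-- A cocompact subgroup has a compact set of representatives. -/
theorem exists_compact_reps :
    ∃ K : Set SL(2, ℝ), IsCompact K ∧ ∀ g, ∃ γ ∈ Γ, g * γ ∈ K := by
  choose L hLc hL using fun g : SL(2, ℝ) => exists_compact_mem_nhds g
  obtain ⟨t, ht⟩ := (isCompact_univ (X := SL(2, ℝ) ⧸ Γ)).elim_finite_subcover
    (fun g => (QuotientGroup.mk : SL(2, ℝ) → SL(2, ℝ) ⧸ Γ) '' interior (L g))
    (fun g => QuotientGroup.isOpenMap_coe _ isOpen_interior) fun x _ => by
      induction x using QuotientGroup.induction_on with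
      | _ g => exact mem_iUnion.2 ⟨g, g, mem_interior_iff_mem_nhds.2 (hL g), rfl⟩
  refine ⟨⋃ g ∈ t, L g, t.isCompact_biUnion fun g _ => hLc g, fun g => ?_⟩
  obtain ⟨i, hi, a, ha, he⟩ := mem_iUnion₂.1 (ht (mem_univ (QuotientGroup.mk g)))
  refine ⟨g⁻¹ * a, QuotientGroup.eq.1 he.symm, mem_iUnion₂.2 ⟨i, hi, ?_⟩⟩
  rw [mul_inv_cancel_left]
  exact interior_subset ha

/-- A compact set of the upper half plane meeting every orbit. -/
def coreSet : Set ℍ :=
  (fun d : SL(2, ℝ) => d⁻¹ • UpperHalfPlane.I) '' (exists_compact_reps Γ).choose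

theorem isCompact_coreSet : IsCompact (coreSet Γ) :=
  (exists_compact_reps Γ).choose_spec.1.image (continuous_inv.smul continuous_const)

theorem exists_mem_coreSet (z : ℍ) : ∃ γ ∈ Γ, γ • z ∈ coreSet Γ := by
  obtain ⟨γ, hγ, hK⟩ := (exists_compact_reps Γ).choose_spec.2 z.toSL2R⁻¹
  refine ⟨γ⁻¹, Γ.inv_mem hγ, _, hK, ?_⟩
  show (z.toSL2R⁻¹ * γ)⁻¹ • UpperHalfPlane.I = _
  rw [mul_inv_rev, inv_inv, mul_smul, toSL2R_smul_I]

variable {Γ} {k : ℤ} {f : ℍ → ℂ}

/-- **The invariant function attains its maximum.** -/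
theorem exists_max_pet (hf : IsForm Γ k f) : ∃ z₀, ∀ z, pet k f z ≤ pet k f z₀ := by
  obtain ⟨γ₀, -, h₀⟩ := exists_mem_coreSet Γ UpperHalfPlane.I
  obtain ⟨z₀, -, hmax⟩ := (isCompact_coreSet Γ).exists_isMaxOn ⟨_, h₀⟩
    (continuous_pet hf.1).continuousOn
  refine ⟨z₀, fun z => ?_⟩
  obtain ⟨γ, hγ, hz⟩ := exists_mem_coreSet Γ z
  exact (pet_smul hf hγ z).symm.trans_le (hmax hz)

theorem norm_chart_le {M : ℝ} (hM : ∀ z, pet k f z ≤ M) (h : SL(2, ℝ)) {w : ℂ} (hw : ‖w‖ < 1) :
    ‖chart k h f w‖ ≤ M * Real.sqrt (1 - ‖w‖ ^ 2) ^ (-k) := by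
  have hs : 0 < Real.sqrt (1 - ‖w‖ ^ 2) := Real.sqrt_pos.2 (by nlinarith [norm_nonneg w])
  rw [zpow_neg, ← div_eq_mul_inv, le_div_iff₀ (zpow_pos hs _), norm_chart k h f hw]
  exact hM _

/-- **Negative weights carry no forms.** -/
theorem eq_zero_of_neg (hk : k < 0) (hf : IsForm Γ k f) : f = 0 := by
  obtain ⟨z₀, hz₀⟩ := exists_max_pet hf
  funext z
  refine eq_zero_of_pet (k := k) (le_antisymm ?_ (pet_nonneg _ _ _))
  obtain ⟨m, rfl⟩ : ∃ m : ℕ, k = -(m : ℤ) := ⟨(-k).toNat, by omega⟩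
  have hm : 0 < m := by omega
  set M := pet (-(m : ℤ)) f z₀
  have hb : ∀ r : ℝ, 0 < r → r < 1 →
      pet (-(m : ℤ)) f z ≤ M * Real.sqrt (1 - r ^ 2) ^ m := fun r hr hr1 => by
    have hd : DiffContOnCl ℂ (chart (-(m : ℤ)) z.toSL2R f) (ball 0 r) :=
      DifferentiableOn.diffContOnCl ((differentiableOn_chart hf.1 _).mono
        (closure_ball_subset_closedBall.trans (closedBall_subset_ball hr1)))
    have := Complex.norm_le_of_forall_mem_frontier_norm_le isBounded_ball hd
      (C := M * Real.sqrt (1 - r ^ 2) ^ m) (fun w hw => by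
        rw [frontier_ball _ hr.ne', mem_sphere_zero_iff_norm] at hw
        have := norm_chart_le hz₀ z.toSL2R (w := w) (hw ▸ hr1)
        rwa [hw, neg_neg, zpow_natCast] at this) (subset_closure (mem_ball_self hr))
    rwa [norm_chart_zero, toSL2R_smul_I] at this
  have hlim : Tendsto (fun r : ℝ => M * Real.sqrt (1 - r ^ 2) ^ m) (𝓝[<] 1) (𝓝 0) := by
    have hc : Continuous fun r : ℝ => M * Real.sqrt (1 - r ^ 2) ^ m := by fun_prop
    simpa [hm.ne'] using (hc.tendsto 1).mono_left nhdsWithin_le_nhds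
  exact ge_of_tendsto hlim (eventually_of_mem (Ioo_mem_nhdsLT zero_lt_one)
    fun r hr => hb r hr.1 hr.2)

/-- **Forms of weight zero are constant.** -/
theorem eq_const_of_weight_zero (hf : IsForm Γ 0 f) : ∃ c, f = fun _ => c := by
  obtain ⟨z₀, hz₀⟩ := exists_max_pet hf
  refine ⟨f z₀, funext fun z => ?_⟩
  have hU : IsPreconnected {w : ℂ | 0 < w.im} := (convex_halfSpace_im_gt 0).isPreconnected
  have hm : IsMaxOn (norm ∘ (f ∘ ofComplex)) {w : ℂ | 0 < w.im} (z₀ : ℂ) := fun w hw => by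
    have h := hz₀ ⟨w, hw⟩
    simp only [pet, zpow_zero, one_mul] at h
    simp only [Set.mem_ofPred_eq, Function.comp_apply, ofComplex_apply]
    rwa [ofComplex_apply_of_im_pos hw]
  have h := Complex.eqOn_of_isPreconnected_of_isMaxOn_norm hU
    (isOpen_lt continuous_const Complex.continuous_im) (UpperHalfPlane.mdifferentiable_iff.1 hf.1)
    z₀.im_pos hm z.im_pos
  simpa [ofComplex_apply] using h

/-- The bound on the tail of the Taylor series. -/
theorem norm_le_of_jets {k : ℕ} {M : ℝ} (hM : ∀ z, pet (k : ℤ) f z ≤ M) (hf : MDiff f)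
    (h : SL(2, ℝ)) (hjet : ∀ n < 3 * k + 3, iteratedDeriv n (chart (k : ℤ) h f) 0 = 0)
    {w : ℂ} (hw : ‖w‖ < 1 / 2) :
    ‖chart (k : ℤ) h f w‖ ≤ 3 * M * 2 ^ k * (2 / 3) ^ (3 * k + 3) := by
  set g := chart (k : ℤ) h f
  set N := 3 * k + 3
  have hd := differentiableOn_chart (k := (k : ℤ)) hf h
  have hM0 : 0 ≤ M := (pet_nonneg _ _ UpperHalfPlane.I).trans (hM _)
  have hs : ∀ u ∈ sphere (0 : ℂ) (3 / 4), ‖g u‖ ≤ M * 2 ^ k := fun u hu => by
    rw [mem_sphere_zero_iff_norm] at hu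
    refine (norm_chart_le hM h (w := u) (by rw [hu]; norm_num)).trans ?_
    rw [zpow_neg, zpow_natCast, ← inv_pow, hu]
    gcongr
    rw [inv_le_comm₀ (by positivity) two_pos]
    exact Real.le_sqrt_of_sq_le (by norm_num)
  have hterm : ∀ n, ‖((n + N).factorial : ℂ)⁻¹ • w ^ (n + N) • iteratedDeriv (n + N) g 0‖ ≤
      M * 2 ^ k * (2 / 3) ^ N * (2 / 3) ^ n := fun n => by
    have hc := Complex.norm_iteratedDeriv_le_of_forall_mem_sphere_norm_le (n + N)
      (show (0 : ℝ) < 3 / 4 by norm_num) (DifferentiableOn.diffContOnCl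
        (hd.mono (closure_ball_subset_closedBall.trans (closedBall_subset_ball (by norm_num))))) hs
    rw [smul_eq_mul, smul_eq_mul, norm_mul, norm_mul, norm_inv, norm_natCast, norm_pow]
    refine (mul_le_mul_of_nonneg_left (mul_le_mul_of_nonneg_left hc (by positivity))
      (by positivity)).trans ?_
    calc (((n + N).factorial : ℝ))⁻¹ * (‖w‖ ^ (n + N) *
          ((n + N).factorial * (M * 2 ^ k) / (3 / 4) ^ (n + N)))
        = M * 2 ^ k * (‖w‖ ^ (n + N) / (3 / 4) ^ (n + N)) := by field_simp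
      _ = M * 2 ^ k * (‖w‖ / (3 / 4)) ^ (n + N) := by rw [div_pow ‖w‖]
      _ ≤ M * 2 ^ k * (2 / 3) ^ (n + N) :=
          mul_le_mul_of_nonneg_left (pow_le_pow_left₀ (by positivity)
            (by rw [div_le_iff₀ (by norm_num)]; linarith) _) (by positivity)
      _ = M * 2 ^ k * (2 / 3) ^ N * (2 / 3) ^ n := by rw [pow_add]; ring
  have hS := Complex.hasSum_taylorSeries_on_ball hd (z := w)
    (by rw [mem_ball_zero_iff]; linarith)
  have hS' := (hasSum_nat_add_iff' N).2 hS
  rw [Finset.sum_eq_zero fun n hn => by rw [hjet n (Finset.mem_range.1 hn), smul_zero, smul_zero]]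
    at hS'
  simp only [sub_zero] at hS'
  have hgeo := (hasSum_geometric_of_lt_one (show (0 : ℝ) ≤ 2 / 3 by norm_num)
    (by norm_num)).mul_left (M * 2 ^ k * (2 / 3) ^ N)
  show ‖chart (k : ℤ) h f w‖ ≤ _
  rw [← hS'.tsum_eq]
  refine (tsum_of_norm_bounded hgeo hterm).trans_eq ?_
  ring

variable (Γ)

/-- Finitely many discs carry every form. -/
theorem exists_jet_points :
    ∃ s : Finset SL(2, ℝ), ∀ (k : ℕ) (f : ℍ → ℂ), IsForm Γ (k : ℤ) f →
      (∀ h ∈ s, ∀ n < 3 * k + 3, iteratedDeriv n (chart (k : ℤ) h f) 0 = 0) → f = 0 := by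
  set U : SL(2, ℝ) → Set ℍ := fun h => {z | ‖cayInv ((h⁻¹ • z : ℍ) : ℂ)‖ < 1 / 2} with hUdef
  have hUo : ∀ h, IsOpen (U h) := fun h => by
    refine isOpen_lt (Continuous.norm ?_) continuous_const
    have hc : Continuous fun z : ℍ => ((h⁻¹ • z : ℍ) : ℂ) :=
      UpperHalfPlane.continuous_coe.comp (continuous_const_smul _)
    exact (hc.sub continuous_const).div (hc.add continuous_const) fun z => add_I_ne_zero _
  obtain ⟨s, hs⟩ := (isCompact_coreSet Γ).elim_finite_subcover U hUo fun z _ =>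
    mem_iUnion.2 ⟨z.toSL2R, by
      have e : z.toSL2R⁻¹ • z = UpperHalfPlane.I := by rw [inv_smul_eq_iff, toSL2R_smul_I]
      simp [hUdef, e, cayInv]⟩
  refine ⟨s, fun k f hf hjet => ?_⟩
  obtain ⟨z₀, hz₀⟩ := exists_max_pet hf
  obtain ⟨γ, hγ, hz⟩ := exists_mem_coreSet Γ z₀
  obtain ⟨h, hh, hw⟩ := mem_iUnion₂.1 (hs hz)
  set y : ℍ := h⁻¹ • γ • z₀ with hy
  have hw' : ‖cayInv (y : ℂ)‖ < 1 / 2 := hw
  have e := norm_chart (k : ℤ) h f (norm_cayInv_lt_one y)
  rw [show (⟨cay (cayInv y), im_cay_pos (norm_cayInv_lt_one y)⟩ : ℍ) = y from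
    UpperHalfPlane.ext (cay_cayInv y), hy, smul_inv_smul, pet_smul hf hγ, zpow_natCast] at e
  set M := pet (k : ℤ) f z₀
  have hb := norm_le_of_jets hz₀ hf.1 h (hjet h hh) hw'
  have hle : M ≤ ‖chart (k : ℤ) h f (cayInv y)‖ := by
    rw [← e]
    exact mul_le_of_le_one_right (norm_nonneg _) (pow_le_one₀ (Real.sqrt_nonneg _)
      (Real.sqrt_le_one.2 (by nlinarith [sq_nonneg ‖cayInv (y : ℂ)‖])))
  have hlt : 3 * 2 ^ k * ((2 : ℝ) / 3) ^ (3 * k + 3) < 1 := by
    calc 3 * 2 ^ k * ((2 : ℝ) / 3) ^ (3 * k + 3)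
        = (3 * (2 / 3) ^ 3) * (2 * (2 / 3) ^ 3) ^ k := by rw [pow_add, pow_mul, mul_pow]; ring
      _ ≤ (3 * (2 / 3) ^ 3) * 1 := by
          gcongr
          exact pow_le_one₀ (by norm_num) (by norm_num)
      _ < 1 := by norm_num
  have hM : M = 0 := by
    have hM0 : 0 ≤ M := pet_nonneg _ _ _
    nlinarith [hle.trans hb]
  exact funext fun z => eq_zero_of_pet (k := (k : ℤ))
    (le_antisymm ((hz₀ z).trans hM.le) (pet_nonneg _ _ _))

/-- **The spaces of forms are finite dimensional, of dimension at most linear in the weight.** -/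
theorem exists_finrank_le :
    ∃ C : ℕ, ∀ k : ℤ, FiniteDimensional ℂ (forms Γ k) ∧
      Module.finrank ℂ (forms Γ k) ≤ C * (k.natAbs + 1) := by
  obtain ⟨s, hs⟩ := exists_jet_points Γ
  refine ⟨3 * s.card, fun k => ?_⟩
  rcases lt_or_ge k 0 with hk | hk
  · have hbot : forms Γ k = ⊥ := (Submodule.eq_bot_iff _).2 fun f hf => eq_zero_of_neg hk hf
    rw [hbot]
    exact ⟨inferInstance, by simp⟩
  lift k to ℕ using hk
  let L : forms Γ (k : ℤ) →ₗ[ℂ] (s × Fin (3 * k + 3) → ℂ) :=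
    { toFun := fun f p => iteratedDeriv p.2 (chart (k : ℤ) p.1 f.1) 0
      map_add' := fun f g => funext fun p => by
        have e : chart (k : ℤ) p.1 (f + g).1 = chart (k : ℤ) p.1 f.1 + chart (k : ℤ) p.1 g.1 :=
          funext fun w => by simp [chart, mul_add]
        show iteratedDeriv _ _ _ = _
        rw [e, iteratedDeriv_add (analyticAt_chart f.2.1 _).contDiffAt
          (analyticAt_chart g.2.1 _).contDiffAt]
        rfl
      map_smul' := fun c f => funext fun p => by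
        have e : chart (k : ℤ) p.1 (c • f).1 = fun w => c * chart (k : ℤ) p.1 f.1 w :=
          funext fun w => by simp [chart, mul_left_comm]
        show iteratedDeriv _ _ _ = _
        rw [e, iteratedDeriv_const_mul_field]
        rfl }
  have hinj : Function.Injective L := (injective_iff_map_eq_zero L).2 fun f hf =>
    Subtype.ext (hs k f.1 f.2 fun h hh n hn => congrFun hf (⟨h, hh⟩, ⟨n, hn⟩))
  haveI : FiniteDimensional ℂ (forms Γ (k : ℤ)) := FiniteDimensional.of_injective L hinj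
  refine ⟨inferInstance, (LinearMap.finrank_le_finrank_of_injective hinj).trans ?_⟩
  simp [Fintype.card_prod]
  exact le_of_eq (by ring)

end FA.CocompactForms

end
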