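import Mathlib.Analysis.Complex.TaylorSeries
import Mathlib.Analysis.Complex.UpperHalfPlane.Manifold
import Mathlib.Analysis.Complex.UpperHalfPlane.ProperAction

/-!
# Forms of weight `k` and disc charts

A form of weight `k` for a subgroup of `SL(2, ℝ)` pulls back along a disc chart `w ↦ h (cay w)` to
a holomorphic `g` with `|g w| (1 - |w|²) ^ (k/2)` equal to the invariant function `y ^ (k/2) |f|`.
-/

set_option autoImplicit false
set_option linter.unusedSectionVars false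

noncomputable section

open Complex Set Filter Topology
open UpperHalfPlane hiding I
open scoped MatrixGroups Manifold

namespace FA.CocompactForms

/-- The factor of automorphy `c z + d`. -/
def jac (g : SL(2, ℝ)) (z : ℂ) : ℂ := (g 1 0 : ℂ) * z + (g 1 1 : ℂ)

/-- The fractional linear map, on all of `ℂ`. -/
def mob (g : SL(2, ℝ)) (z : ℂ) : ℂ := ((g 0 0 : ℂ) * z + (g 0 1 : ℂ)) / jac g z

theorem jac_eq_denom (g : SL(2, ℝ)) (z : ℂ) :
    jac g z = denom (Matrix.SpecialLinearGroup.mapGL ℝ g) z := by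
  simp [jac, denom]

theorem coe_smul_eq_mob (g : SL(2, ℝ)) (z : ℍ) : ((g • z : ℍ) : ℂ) = mob g z := by
  simp [coe_specialLinearGroup_apply, mob, jac]

theorem jac_ne_zero (g : SL(2, ℝ)) {z : ℂ} (hz : z.im ≠ 0) : jac g z ≠ 0 := by
  rw [jac_eq_denom]
  exact denom_ne_zero_of_im _ hz

theorem jac_mul (g h : SL(2, ℝ)) (z : ℍ) : jac (g * h) z = jac g (h • z : ℍ) * jac h z := by
  have hne := jac_ne_zero h z.im_ne_zero
  have key : jac g (mob h z) * jac h z = (g 1 0 : ℂ) * ((h 0 0 : ℂ) * z + (h 0 1 : ℂ)) +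
      (g 1 1 : ℂ) * jac h z := by
    rw [mob, jac, add_mul, mul_assoc, div_mul_cancel₀ _ hne]
  rw [coe_smul_eq_mob, key]
  simp [jac, Matrix.mul_apply, Fin.sum_univ_two]
  ring

theorem im_smul_sl (g : SL(2, ℝ)) (z : ℍ) : (g • z).im = z.im / ‖jac g z‖ ^ 2 := by
  rw [← normSq_eq_norm_sq, jac_eq_denom]
  exact (im_smul_eq_div_normSq (Matrix.SpecialLinearGroup.mapGL ℝ g) z).trans (by simp)

theorem sqrt_im_smul (g : SL(2, ℝ)) (z : ℍ) :
    Real.sqrt (g • z).im = Real.sqrt z.im / ‖jac g z‖ := by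
  rw [im_smul_sl, Real.sqrt_div z.im_pos.le, Real.sqrt_sq (norm_nonneg _)]

/-- **A form of weight `k`**: holomorphic with `f (γ z) = (c z + d) ^ k f z`. -/
def IsForm (Γ : Subgroup SL(2, ℝ)) (k : ℤ) (f : ℍ → ℂ) : Prop :=
  MDiff f ∧ ∀ γ ∈ Γ, ∀ z : ℍ, f (γ • z) = jac γ z ^ k * f z

/-- The space of forms. -/
def forms (Γ : Subgroup SL(2, ℝ)) (k : ℤ) : Submodule ℂ (ℍ → ℂ) where
  carrier := {f | IsForm Γ k f}
  add_mem' {f g} hf hg := ⟨UpperHalfPlane.mdifferentiable_iff.2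
      ((UpperHalfPlane.mdifferentiable_iff.1 hf.1).add (UpperHalfPlane.mdifferentiable_iff.1 hg.1)),
    fun γ hγ z => by simp only [Pi.add_apply, hf.2 γ hγ z, hg.2 γ hγ z, mul_add]⟩
  zero_mem' := ⟨UpperHalfPlane.mdifferentiable_iff.2 (differentiableOn_const 0),
    fun γ _ z => by simp⟩
  smul_mem' c f hf := ⟨UpperHalfPlane.mdifferentiable_iff.2
      ((UpperHalfPlane.mdifferentiable_iff.1 hf.1).const_smul c),
    fun γ hγ z => by simp only [Pi.smul_apply, smul_eq_mul, hf.2 γ hγ z, mul_left_comm]⟩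

theorem mem_forms {Γ : Subgroup SL(2, ℝ)} {k : ℤ} {f : ℍ → ℂ} :
    f ∈ forms Γ k ↔ IsForm Γ k f := Iff.rfl

/-- The invariant function `y ^ (k/2) |f|`. -/
def pet (k : ℤ) (f : ℍ → ℂ) (z : ℍ) : ℝ := Real.sqrt z.im ^ k * ‖f z‖

theorem pet_nonneg (k : ℤ) (f : ℍ → ℂ) (z : ℍ) : 0 ≤ pet k f z :=
  mul_nonneg (zpow_nonneg (Real.sqrt_nonneg _) _) (norm_nonneg _)

theorem eq_zero_of_pet {k : ℤ} {f : ℍ → ℂ} {z : ℍ} (h : pet k f z = 0) : f z = 0 :=
  norm_eq_zero.1 ((mul_eq_zero.1 h).resolve_left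
    (zpow_ne_zero _ (Real.sqrt_ne_zero'.2 z.im_pos)))

theorem pet_smul {Γ : Subgroup SL(2, ℝ)} {k : ℤ} {f : ℍ → ℂ} (hf : IsForm Γ k f) {γ : SL(2, ℝ)}
    (hγ : γ ∈ Γ) (z : ℍ) : pet k f (γ • z) = pet k f z := by
  have hne : (‖jac γ z‖ : ℝ) ^ k ≠ 0 :=
    zpow_ne_zero _ (norm_ne_zero_iff.2 (jac_ne_zero γ z.im_ne_zero))
  rw [pet, pet, hf.2 γ hγ z, norm_mul, norm_zpow, sqrt_im_smul, div_zpow, ← mul_assoc,
    div_mul_cancel₀ _ hne]

theorem continuous_pet {k : ℤ} {f : ℍ → ℂ} (hf : MDiff f) : Continuous (pet k f) :=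
  ((Real.continuous_sqrt.comp UpperHalfPlane.continuous_im).zpow₀ k
    fun z => .inl (Real.sqrt_ne_zero'.2 z.im_pos)).mul hf.continuous.norm

/-- The Cayley map from the unit disc. -/
def cay (w : ℂ) : ℂ := I * (1 + w) / (1 - w)

/-- Its inverse. -/
def cayInv (z : ℂ) : ℂ := (z - I) / (z + I)

theorem cay_zero : cay 0 = I := by simp [cay]

theorem one_sub_ne_zero {w : ℂ} (hw : ‖w‖ < 1) : (1 : ℂ) - w ≠ 0 := fun h => by
  rw [← sub_eq_zero.1 h, norm_one] at hw
  exact lt_irrefl _ hw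

theorem im_cay (w : ℂ) : (cay w).im = (1 - ‖w‖ ^ 2) / ‖1 - w‖ ^ 2 := by
  rw [← normSq_eq_norm_sq, ← normSq_eq_norm_sq]
  simp [cay, div_im, normSq_apply]
  ring

theorem im_cay_pos {w : ℂ} (hw : ‖w‖ < 1) : 0 < (cay w).im := by
  rw [im_cay]
  have := norm_pos_iff.2 (one_sub_ne_zero hw)
  exact div_pos (by nlinarith [norm_nonneg w]) (by positivity)

theorem add_I_ne_zero (z : ℍ) : (z : ℂ) + I ≠ 0 := fun h => by
  have := congrArg Complex.im h
  simp at this
  linarith [z.im_pos]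

theorem cay_cayInv (z : ℍ) : cay (cayInv z) = z := by
  have h := add_I_ne_zero z
  have h2 : (2 : ℂ) * I ≠ 0 := mul_ne_zero two_ne_zero I_ne_zero
  rw [cay, cayInv, one_add_div h, one_sub_div h, mul_div_assoc, div_div_div_cancel_right₀ h,
    show (z : ℂ) + I - ((z : ℂ) - I) = 2 * I by ring, ← mul_div_assoc, div_eq_iff h2]
  ring

theorem norm_cayInv_lt_one (z : ℍ) : ‖cayInv z‖ < 1 := by
  rw [cayInv, norm_div, div_lt_one (norm_pos_iff.2 (add_I_ne_zero z))]
  refine lt_of_pow_lt_pow_left₀ 2 (norm_nonneg _) ?_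
  rw [← normSq_eq_norm_sq, ← normSq_eq_norm_sq]
  simp [normSq_apply]
  nlinarith [z.im_pos]

/-- The pullback of a form to the disc centred at `h • i`. -/
def chart (k : ℤ) (h : SL(2, ℝ)) (f : ℍ → ℂ) (w : ℂ) : ℂ :=
  ((1 - w) * jac h (cay w)) ^ (-k) * (f ∘ ofComplex) (mob h (cay w))

theorem norm_chart (k : ℤ) (h : SL(2, ℝ)) (f : ℍ → ℂ) {w : ℂ} (hw : ‖w‖ < 1) :
    ‖chart k h f w‖ * Real.sqrt (1 - ‖w‖ ^ 2) ^ k = pet k f (h • ⟨cay w, im_cay_pos hw⟩) := by
  set z : ℍ := ⟨cay w, im_cay_pos hw⟩ with hzdef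
  have e : (f ∘ ofComplex) (mob h (cay w)) = f (h • z) := by
    rw [Function.comp_apply, show cay w = (z : ℂ) from rfl, ← coe_smul_eq_mob, ofComplex_apply]
  have hz : z.im = (1 - ‖w‖ ^ 2) / ‖1 - w‖ ^ 2 := im_cay w
  rw [chart, e, pet, sqrt_im_smul, hz, Real.sqrt_div (by nlinarith [norm_nonneg w]),
    Real.sqrt_sq (norm_nonneg _), div_div, show (z : ℂ) = cay w from rfl, norm_mul, norm_zpow,
    norm_mul, div_zpow, zpow_neg]
  field_simp

theorem norm_chart_zero (k : ℤ) (h : SL(2, ℝ)) (f : ℍ → ℂ) :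
    ‖chart k h f 0‖ = pet k f (h • UpperHalfPlane.I) := by
  have e := norm_chart k h f (w := 0) (by simp)
  simp only [norm_zero, ne_eq, OfNat.ofNat_ne_zero, not_false_eq_true, zero_pow, sub_zero,
    Real.sqrt_one, one_zpow, mul_one] at e
  rw [e]
  congr 2
  exact UpperHalfPlane.ext cay_zero

theorem differentiableOn_chart {k : ℤ} {f : ℍ → ℂ} (hf : MDiff f) (h : SL(2, ℝ)) :
    DifferentiableOn ℂ (chart k h f) (Metric.ball 0 1) := by
  intro w hw
  rw [mem_ball_zero_iff] at hw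
  have him := im_cay_pos hw
  have hcay : DifferentiableAt ℂ cay w := by
    unfold cay
    fun_prop (disch := exact one_sub_ne_zero hw)
  have hjac : DifferentiableAt ℂ (fun w => jac h (cay w)) w := by
    simp only [jac]
    fun_prop
  have hmob : DifferentiableAt ℂ (fun w => mob h (cay w)) w := by
    simp only [mob]
    exact ((hcay.const_mul _).add_const _).div hjac (jac_ne_zero h him.ne')
  have hpos : 0 < (mob h (cay w)).im := by
    rw [← coe_smul_eq_mob h ⟨cay w, him⟩]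
    exact (h • (⟨cay w, him⟩ : ℍ)).im_pos
  have hfat : DifferentiableAt ℂ (f ∘ ofComplex) (mob h (cay w)) :=
    (UpperHalfPlane.mdifferentiable_iff.1 hf).differentiableAt
      ((isOpen_lt continuous_const Complex.continuous_im).mem_nhds hpos)
  refine (DifferentiableAt.mul ?_ (DifferentiableAt.comp w hfat hmob)).differentiableWithinAt
  exact ((differentiableAt_id.const_sub 1).mul hjac).zpow
    (.inl (mul_ne_zero (one_sub_ne_zero hw) (jac_ne_zero h him.ne')))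

theorem analyticAt_chart {k : ℤ} {f : ℍ → ℂ} (hf : MDiff f) (h : SL(2, ℝ)) :
    AnalyticAt ℂ (chart k h f) 0 :=
  (differentiableOn_chart hf h).analyticAt (Metric.isOpen_ball.mem_nhds (by simp))

end FA.CocompactForms

end
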