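import Fermat.Agent.CocompactForms.Bound

/-!
# Compact quotients have no cusps

A unipotent element has conjugates arbitrarily close to one, and moving the conjugating elements
into a compact set of representatives turns these into elements of the discrete subgroup close to
one.
-/

set_option autoImplicit false
set_option linter.unusedSectionVars false
set_option linter.style.haveILetI false

noncomputable section

open Set Filter Topology FA.HoweMoore
open scoped MatrixGroups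

namespace FA.CocompactForms

variable {Γ : Subgroup SL(2, ℝ)} [DiscreteTopology Γ] [CompactSpace (SL(2, ℝ) ⧸ Γ)]

/-- An element with conjugates tending to one is one. -/
theorem eq_one_of_tendsto_conj {γ : SL(2, ℝ)} (hγ : γ ∈ Γ) {g : ℕ → SL(2, ℝ)}
    (h : Tendsto (fun n => g n * γ * (g n)⁻¹) atTop (𝓝 1)) : γ = 1 := by
  obtain ⟨K, hK, hcov⟩ := exists_compact_reps Γ
  obtain ⟨W, hW, hW1⟩ := isOpen_induced_iff.1 (isOpen_discrete ({1} : Set Γ))
  have hW1' : (1 : SL(2, ℝ)) ∈ W := by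
    have : (1 : Γ) ∈ ((↑) ⁻¹' W : Set Γ) := by rw [hW1]; rfl
    exact this
  have htube : ∀ᶠ y in 𝓝 (1 : SL(2, ℝ)), ∀ d ∈ K, d⁻¹ * y * d ∈ W := by
    refine hK.eventually_forall_of_forall_eventually fun d _ => ?_
    have hc : Continuous fun z : SL(2, ℝ) × SL(2, ℝ) => z.2⁻¹ * z.1 * z.2 :=
      (continuous_snd.inv.mul continuous_fst).mul continuous_snd
    exact (hc.tendsto (1, d)).eventually (hW.mem_nhds (by simpa using hW1'))
  obtain ⟨n, hn⟩ := (h.eventually htube).exists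
  obtain ⟨δ, hδ, hδK⟩ := hcov (g n)
  have hmem := hn _ hδK
  rw [show (g n * δ)⁻¹ * (g n * γ * (g n)⁻¹) * (g n * δ) = δ⁻¹ * γ * δ by group] at hmem
  have h1 : (⟨δ⁻¹ * γ * δ, Γ.mul_mem (Γ.mul_mem (Γ.inv_mem hδ) hγ) hδ⟩ : Γ) ∈
      ({1} : Set Γ) := by
    rw [← hW1]
    exact hmem
  have h2 : δ⁻¹ * γ * δ = 1 := congrArg Subtype.val h1
  calc γ = δ * (δ⁻¹ * γ * δ) * δ⁻¹ := by group
    _ = 1 := by rw [h2, mul_one, mul_inv_cancel]

theorem tendsto_diag_lower (s : ℝ) :
    Tendsto (fun n : ℕ => diagA n * lowerU s * (diagA n)⁻¹) atTop (𝓝 1) := by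
  have e : ∀ n : ℕ, diagA n * lowerU s * (diagA n)⁻¹ = lowerU (s * Real.exp (-(2 * (n : ℝ)))) :=
    fun n => by rw [diagA_mul_lowerU, mul_inv_cancel_right]
  simp only [e]
  rw [← lowerU_zero]
  refine (continuous_lowerU.tendsto 0).comp ?_
  have h1 : Tendsto (fun n : ℕ => Real.exp (-(2 * (n : ℝ)))) atTop (𝓝 0) :=
    Real.tendsto_exp_atBot.comp (tendsto_neg_atTop_atBot.comp
      (tendsto_natCast_atTop_atTop.const_mul_atTop two_pos))
  simpa using h1.const_mul s

/-- **No parabolic elements.** -/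
theorem eq_one_of_trace_eq_two {γ : SL(2, ℝ)} (hγ : γ ∈ Γ) (htr : γ 0 0 + γ 1 1 = 2) : γ = 1 := by
  obtain ⟨u, s, hu⟩ : ∃ (u : SL(2, ℝ)) (s : ℝ), u * γ * u⁻¹ = lowerU s := by
    have hdet := det2 γ
    rcases eq_or_ne (γ 1 0) 0 with hc | hc
    · have ha : γ 0 0 = 1 := by
        rw [hc, mul_zero, sub_zero, show γ 1 1 = 2 - γ 0 0 by linarith] at hdet
        nlinarith [sq_nonneg (γ 0 0 - 1)]
      refine ⟨mk2 0 1 (-1) 0 (by ring), -γ 0 1, ?_⟩
      rw [mul_inv_eq_iff_eq_mul]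
      apply ext2 <;> simp [mul_apply2, lowerU, hc, ha, show γ 1 1 = 1 by linarith]
    · refine ⟨upperU (-((γ 0 0 - γ 1 1) / (2 * γ 1 0))), γ 1 0, ?_⟩
      rw [mul_inv_eq_iff_eq_mul]
      have hb : γ 0 1 * (4 * γ 1 0) = -(γ 0 0 - γ 1 1) ^ 2 := by
        have : (γ 0 0 + γ 1 1) ^ 2 = 4 := by rw [htr]; norm_num
        linarith
      apply ext2 <;> simp [mul_apply2, lowerU, upperU] <;> field_simp
      all_goals (rw [show γ 0 0 = 2 - γ 1 1 by linarith] at *; nlinarith)
  refine eq_one_of_tendsto_conj hγ (g := fun n => diagA n * u) ?_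
  refine (tendsto_diag_lower s).congr fun n => ?_
  rw [← hu]
  group

end FA.CocompactForms

end
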